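import Mathlib

/-!
# Finite order elements congruent to `1` in finite torsion-free algebras

The algebra behind the diamond operators on Taylor–Wiles modules.
-/

set_option autoImplicit false

noncomputable section

open IsLocalRing Polynomial

namespace Fermat.Agent.R59.TWLevel

/-- `∑_{j<p} (1+X)^j = X^(p-1) + p (1 + X s)`. -/
theorem exists_geom_sum_eq (p : ℕ) [hp : Fact p.Prime] :
    ∃ s : Polynomial ℤ, ∀ (E : Type) [Ring E] (a : E),
      ∑ j ∈ Finset.range p, (1 + a) ^ j = a ^ (p - 1) + (p : E) * (1 + a * aeval a s) := by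
  obtain ⟨r, hr⟩ := exists_add_pow_prime_pow_eq hp.out (1 : ℤ[X]) X 1
  have hsum : (∑ j ∈ Finset.range p, (1 + X : ℤ[X]) ^ j) = X ^ (p - 1) + (p : ℤ[X]) * r := by
    refine mul_right_cancel₀ (X_ne_zero : (X : ℤ[X]) ≠ 0) ?_
    have h := geom_sum_mul (1 + X : ℤ[X]) p
    rw [add_sub_cancel_left] at h
    rw [h, add_mul, ← pow_succ, Nat.sub_add_cancel hp.out.one_le]
    simp only [pow_one, one_pow, mul_one] at hr
    rw [hr]
    ring
  have hr0 : r.coeff 0 = 1 := by
    have h := congrArg (eval 0) hsum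
    simp only [eval_finsetSum, eval_pow, eval_add, eval_one, eval_X, add_zero, one_pow,
      Finset.sum_const, Finset.card_range, nsmul_eq_mul, mul_one, eval_mul, eval_natCast,
      zero_pow (Nat.sub_ne_zero_of_lt hp.out.one_lt), zero_add] at h
    rw [coeff_zero_eq_eval_zero]
    exact (mul_right_eq_self₀.mp h.symm).resolve_right (by exact_mod_cast hp.out.ne_zero)
  refine ⟨r.divX, fun E _ a => ?_⟩
  have h := congrArg (aeval a) hsum
  simp only [map_sum, map_pow, map_add, map_one, aeval_X, map_mul, map_natCast] at h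
  rw [h]
  conv_lhs => rw [← X_mul_divX_add r, hr0]
  rw [map_add, map_mul, aeval_X, map_one]
  simp only [map_one]
  rw [add_comm (a * _) 1]

variable {𝒪 : Type} [CommRing 𝒪] [IsLocalRing 𝒪] [IsNoetherianRing 𝒪]
  {E : Type} [Ring E] [Algebra 𝒪 E] [Module.Finite 𝒪 E]
  {p : ℕ} [hp : Fact p.Prime]

omit hp in
/-- An element which is a `p`-multiple of a multiple of itself vanishes. -/
theorem eq_zero_of_eq_natCast_mul (hpm : (p : 𝒪) ∈ maximalIdeal 𝒪) {y d : E}
    (h : y = (p : E) * (d * y)) : y = 0 := by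
  set N : Submodule 𝒪 E := LinearMap.range (LinearMap.mulRight 𝒪 y)
  have hN : N = ⊥ := by
    refine Submodule.eq_bot_of_le_smul_of_le_jacobson_bot (maximalIdeal 𝒪) N
      (IsNoetherian.noetherian N) ?_ (IsLocalRing.maximalIdeal_le_jacobson ⊥)
    rintro _ ⟨e, rfl⟩
    have : e * y = (p : 𝒪) • ((e * d) * y) := by
      rw [Algebra.smul_def, map_natCast]
      conv_lhs => rw [h]
      rw [← mul_assoc, ← Nat.cast_comm, mul_assoc, ← mul_assoc e d y]
    rw [LinearMap.mulRight_apply, this]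
    exact Submodule.smul_mem_smul hpm ⟨_, rfl⟩
  have : y ∈ N := ⟨1, one_mul y⟩
  rwa [hN, Submodule.mem_bot] at this

/-- In a `p`-torsion-free finite algebra `1 + p y` has `p`-power order only when `y = 0`. -/
theorem eq_zero_of_pow_eq_one (hp2 : p ≠ 2) (hpm : (p : 𝒪) ∈ maximalIdeal 𝒪)
    (htf : ∀ a : E, (p : E) * a = 0 → a = 0) (v : ℕ) {y : E}
    (h : (1 + (p : E) * y) ^ p ^ v = 1) : y = 0 := by
  induction v generalizing y with
  | zero =>
    rw [pow_zero, pow_one, add_eq_left] at h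
    exact htf y h
  | succ v ih =>
    obtain ⟨s, hs⟩ := exists_geom_sum_eq p
    have hp3 : 3 ≤ p := by have := hp.out.two_le; omega
    obtain ⟨c, hc⟩ : ∃ c : E,
        (1 + (p : E) * y) ^ p = 1 + (p : E) * ((p : E) * (y + (p : E) * (c * y))) := by
      obtain ⟨c, hc⟩ : ∃ c : ℤ[X], (1 + (p : ℤ[X]) * X) ^ p =
          1 + (p : ℤ[X]) * ((p : ℤ[X]) * (X + (p : ℤ[X]) * (c * X))) := by
        obtain ⟨A, hA⟩ : ∃ A : ℤ[X], ∑ j ∈ Finset.range p, (1 + (p : ℤ[X]) * X) ^ j =
            ((p : ℤ[X]) * X) ^ (p - 1) + (p : ℤ[X]) * (1 + (p : ℤ[X]) * X * A) :=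
          ⟨_, hs ℤ[X] _⟩
        refine ⟨X * A + (p : ℤ[X]) ^ (p - 3) * X ^ (p - 1), ?_⟩
        have hg := geom_sum_mul (1 + (p : ℤ[X]) * X) p
        rw [add_sub_cancel_left, hA] at hg
        rw [← sub_eq_iff_eq_add', ← hg]
        obtain ⟨q, rfl⟩ := Nat.exists_eq_add_of_le hp3
        rw [show 3 + q - 1 = q + 2 by omega, show 3 + q - 3 = q by omega]
        ring
      refine ⟨aeval y c, ?_⟩
      simpa only [map_pow, map_add, map_mul, map_one, map_natCast, aeval_X] using
        congrArg (aeval y) hc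
    rw [pow_succ', pow_mul, hc] at h
    have h1 := htf _ (ih h)
    refine eq_zero_of_eq_natCast_mul hpm (d := -c) ?_
    rw [neg_mul, mul_neg]
    exact eq_neg_of_add_eq_zero_left h1

/-- A unipotent element of finite order is trivial. -/
theorem eq_one_of_sq_zero {N : ℕ} (htf : ∀ a : E, (N : E) * a = 0 → a = 0) {u : E}
    (h2 : (u - 1) ^ 2 = 0) (hu : u ^ N = 1) : u = 1 := by
  have key : ∀ k : ℕ, u ^ k = 1 + (k : E) * (u - 1) := by
    intro k
    induction k with
    | zero => simp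
    | succ k ih =>
      rw [pow_succ, ih]
      have : (u - 1) * (u - 1) = 0 := by rw [← sq]; exact h2
      calc (1 + (k : E) * (u - 1)) * u
          = 1 + (((k + 1 : ℕ) : E)) * (u - 1) + (k : E) * ((u - 1) * (u - 1)) := by
            push_cast; noncomm_ring
        _ = _ := by rw [this, mul_zero, add_zero]
  have h := key N
  rw [hu, left_eq_add] at h
  exact sub_eq_zero.mp (htf _ h)

section Central

variable {Λ : Type} [CommRing Λ] [Algebra Λ E]

/-- Where `g ^ p ^ k = 1`, an element of `1 + (g - 1) E` of `p`-power order has order `p ^ k`. -/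
theorem pow_eq_one_of_gen_pow (hp2 : p ≠ 2) (hpm : (p : 𝒪) ∈ maximalIdeal 𝒪)
    (htf : ∀ a : E, (p : E) * a = 0 → a = 0) {g : Λ} {k : ℕ}
    (hg : algebraMap Λ E (g ^ p ^ k) = 1) {U x : E} (hU : U = 1 + algebraMap Λ E (g - 1) * x)
    (v : ℕ) (hv : U ^ p ^ v = 1) : U ^ p ^ k = 1 := by
  set X := algebraMap Λ E (g - 1) with hX
  have hXc : ∀ z, Commute X z := fun z => Algebra.commutes _ z
  obtain ⟨r, hr⟩ := exists_add_pow_prime_pow_eq hp.out (1 : Λ) (g - 1) k
  rw [add_sub_cancel, one_pow, mul_one] at hr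
  replace hr := congrArg (algebraMap Λ E) hr
  rw [hg, map_add, map_add, map_pow, map_mul, map_mul, map_natCast, map_one, ← hX, add_assoc,
    left_eq_add, add_eq_zero_iff_eq_neg] at hr
  obtain ⟨r', hr'⟩ := (Commute.one_left (X * x)).exists_add_pow_prime_pow_eq hp.out k
  rw [← hU, one_pow, mul_one, (hXc x).mul_pow, hr, neg_mul, mul_assoc (p : E) X, mul_assoc (p : E),
    add_assoc, mul_assoc (p : E) (X * x), ← mul_neg, ← mul_add] at hr'
  have hw : (U ^ p ^ k) ^ p ^ v = 1 := by rw [pow_right_comm, hv, one_pow]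
  rw [hr'] at hw
  rw [hr', eq_zero_of_pow_eq_one hp2 hpm htf v hw, mul_zero, add_zero]

/-- Where `∑_{j<p} g^j = 0`, an element `1 + (g - 1) x` of `p`-power order without fixed vectors
has `x ^ (p - 1) ≡ 1` modulo `g - 1`. -/
theorem exists_pow_eq_one_add (hp2 : p ≠ 2) (hpm : (p : 𝒪) ∈ maximalIdeal 𝒪)
    (htf : ∀ a : E, (p : E) * a = 0 → a = 0) {g : Λ}
    (hg : algebraMap Λ E (∑ j ∈ Finset.range p, g ^ j) = 0) {U x : E}
    (hU : U = 1 + algebraMap Λ E (g - 1) * x) (v : ℕ) (hv : U ^ p ^ v = 1)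
    (hinj : ∀ e : E, (U - 1) * e = 0 → e = 0) :
    ∃ z, x ^ (p - 1) = 1 + algebraMap Λ E (g - 1) * z := by
  have hgp : algebraMap Λ E (g ^ p ^ 1) = 1 := by
    have h := congrArg (algebraMap Λ E) (geom_sum_mul g p)
    rw [map_mul, hg, zero_mul, map_sub, map_one, eq_comm, sub_eq_zero] at h
    rwa [pow_one]
  have hUp := pow_eq_one_of_gen_pow hp2 hpm htf hgp hU v hv
  rw [pow_one] at hUp
  have hsum : ∑ j ∈ Finset.range p, U ^ j = 0 := hinj _ (by rw [mul_geom_sum, hUp, sub_self])
  obtain ⟨s, hs⟩ := exists_geom_sum_eq p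
  set X := algebraMap Λ E (g - 1) with hX
  have hXc : ∀ z, Commute X z := fun z => Algebra.commutes _ z
  rw [hU, hs, (hXc x).mul_pow] at hsum
  have hX0 : X ^ (p - 1) + (p : E) * (1 + X * aeval X s) = 0 := by
    rw [← hs, hX, ← map_one (algebraMap Λ E), ← map_add, add_sub_cancel, ← hg, map_sum]
    simp only [map_pow]
  rw [add_eq_zero_iff_eq_neg.mp hX0, neg_mul, mul_assoc, ← sub_eq_neg_add, ← mul_sub] at hsum
  have := sub_eq_zero.mp (htf _ hsum)
  refine ⟨x * aeval (X * x) s - aeval X s * x ^ (p - 1), ?_⟩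
  rw [mul_assoc, add_mul, one_mul, mul_assoc] at this
  rw [mul_sub, ← add_sub_assoc, this, add_sub_cancel_right]

end Central

/-- An algebra map into a local algebra with the residue field of the base is local. -/
theorem isLocalHom_algHom {R A B : Type} [CommRing R] [CommRing A] [IsLocalRing A] [CommRing B]
    [IsLocalRing B] [Algebra R A] [Algebra R B]
    (hs : Function.Surjective (residue B ∘ algebraMap R B)) (f : A →ₐ[R] B) :
    IsLocalHom (f : A →+* B) := by
  let φ : A →+* ResidueField B := (residue B).comp (f : A →+* B)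
  have hφ : Function.Surjective φ := fun y => by
    obtain ⟨c, hc⟩ := hs y
    exact ⟨algebraMap R A c, (congrArg (residue B) (f.commutes c)).trans hc⟩
  have hker : RingHom.ker φ = maximalIdeal A :=
    IsLocalRing.eq_maximalIdeal (RingHom.ker_isMaximal_of_surjective φ hφ)
  refine ⟨fun a ha => notMem_maximalIdeal.1 fun hm => ?_⟩
  rw [← hker, RingHom.mem_ker] at hm
  exact (ha.map (residue B)).ne_zero hm

/-- In a finite local algebra the maximal ideal is nilpotent modulo that of the base. -/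
theorem exists_pow_mem_map {R A : Type} [CommRing R] [IsLocalRing R] [CommRing A] [IsLocalRing A]
    [Algebra R A] [Module.Finite R A] {a : A} (ha : a ∈ maximalIdeal A) :
    ∃ j : ℕ, a ^ j ∈ (maximalIdeal R).map (algebraMap R A) := by
  suffices a ∈ ((maximalIdeal R).map (algebraMap R A)).radical from this
  rw [Ideal.radical_eq_sInf, Submodule.mem_sInf]
  intro P' hP
  obtain ⟨P, rfl⟩ : ∃ P : Ideal A, P = P' := ⟨P', rfl⟩
  obtain ⟨hle, hP'⟩ := hP
  have : P.IsPrime := hP'
  have hmax : P.IsMaximal := by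
    refine Ideal.isMaximal_of_isIntegral_of_isMaximal_comap (R := R) P ?_
    rw [← (maximalIdeal.isMaximal R).eq_of_le (Ideal.IsPrime.ne_top inferInstance)
      (Ideal.map_le_iff_le_comap.1 hle)]
    exact maximalIdeal.isMaximal R
  rwa [IsLocalRing.eq_maximalIdeal hmax]

end Fermat.Agent.R59.TWLevel
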