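import Fermat.Agent.R59.GroupRing

/-!
# Quotients of the group ring of `(ℤ/p^m)^r`

The quotients cutting out the components trivial at one coordinate, of order `p` at one coordinate,
and of level `p^n`, are torsion-free; free modules stay torsion-free modulo them.
-/

set_option autoImplicit false
set_option linter.unusedSectionVars false

noncomputable section

open IsLocalRing

namespace Fermat.Agent.R59.TWLevel

variable {𝒪 : Type} [CommRing 𝒪] {p : ℕ} [NeZero p] {m r : ℕ}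

theorem twGroup_eq_prod (g : TWGroup p m r) :
    g = ∏ j : Fin r, (Pi.mulSingle j (Multiplicative.ofAdd (1 : ZMod (p ^ m))) : TWGroup p m r) ^
      (Multiplicative.toAdd (g j)).val := by
  conv_lhs => rw [← Finset.univ_prod_mulSingle g]
  refine Finset.prod_congr rfl fun j _ => ?_
  rw [← Pi.mulSingle_pow]
  congr 1
  apply Multiplicative.toAdd.injective
  rw [toAdd_pow, toAdd_ofAdd, nsmul_eq_mul, mul_one, ZMod.natCast_zmod_val]

theorem of_eq_prod (g : TWGroup p m r) : MonoidAlgebra.of 𝒪 (TWGroup p m r) g =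
    ∏ j, twGen 𝒪 p m r j ^ (Multiplicative.toAdd (g j)).val := by
  conv_lhs => rw [twGroup_eq_prod g, map_prod]
  exact Finset.prod_congr rfl fun j _ => map_pow _ _ _

/-- Algebra maps out of the group ring agreeing on the generators are equal. -/
theorem twAlg_hom_ext {B : Type} [CommSemiring B] [Algebra 𝒪 B] {φ ψ : TWAlg 𝒪 p m r →ₐ[𝒪] B}
    (h : ∀ j, φ (twGen 𝒪 p m r j) = ψ (twGen 𝒪 p m r j)) : φ = ψ := by
  apply MonoidAlgebra.algHom_ext
  swap
  · exact AlgHom.ext fun c => ((φ.comp _).commutes c).trans ((ψ.comp _).commutes c).symm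
  intro g
  show φ (MonoidAlgebra.of 𝒪 (TWGroup p m r) g) = ψ (MonoidAlgebra.of 𝒪 (TWGroup p m r) g)
  rw [of_eq_prod, map_prod, map_prod]
  exact Finset.prod_congr rfl fun j _ => by rw [map_pow, map_pow, h]

theorem pow_add_of_pow_eq_one {G : Type} [Monoid G] {N : ℕ} [NeZero N] {y : G} (hy : y ^ N = 1)
    (a b : ZMod N) : y ^ (a + b).val = y ^ a.val * y ^ b.val := by
  rw [← pow_add, ZMod.val_add]
  exact (pow_eq_pow_mod _ hy).symm

/-- The algebra map out of the group ring with prescribed images of the generators. -/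
def twLift {B : Type} [CommRing B] [Algebra 𝒪 B] (y : Fin r → B) (hy : ∀ j, y j ^ p ^ m = 1) :
    TWAlg 𝒪 p m r →ₐ[𝒪] B :=
  MonoidAlgebra.lift 𝒪 B (TWGroup p m r)
    { toFun := fun g => ∏ j, y j ^ (Multiplicative.toAdd (g j)).val
      map_one' := by simp
      map_mul' := fun g h => by
        rw [← Finset.prod_mul_distrib]
        exact Finset.prod_congr rfl fun j _ => pow_add_of_pow_eq_one (hy j) _ _ }

theorem twLift_twGen {B : Type} [CommRing B] [Algebra 𝒪 B] (y : Fin r → B)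
    (hy : ∀ j, y j ^ p ^ m = 1) (j : Fin r) :
    twLift (𝒪 := 𝒪) y hy (twGen 𝒪 p m r j) = y j := by
  classical
  rw [twLift, twGen, MonoidAlgebra.lift_of]
  show ∏ i, y i ^ (Multiplicative.toAdd
    ((Pi.mulSingle j (Multiplicative.ofAdd (1 : ZMod (p ^ m))) : TWGroup p m r) i)).val = y j
  rw [Finset.prod_eq_single j (fun i _ hi => by simp [Pi.mulSingle_eq_of_ne hi]) (by simp),
    Pi.mulSingle_eq_same, toAdd_ofAdd, ZMod.val_one_eq_one_mod,
    ← pow_eq_pow_mod _ (hy j), pow_one]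

/-- A map with a left inverse modulo an ideal it kills has that ideal as kernel. -/
theorem ker_eq_of_hom {B : Type} [CommRing B] [Algebra 𝒪 B] {I : Ideal (TWAlg 𝒪 p m r)}
    (φ : TWAlg 𝒪 p m r →ₐ[𝒪] B) (ψ : B →ₐ[𝒪] TWAlg 𝒪 p m r ⧸ I)
    (hI : ∀ a ∈ I, φ a = 0)
    (h : ∀ j, ψ (φ (twGen 𝒪 p m r j)) = Ideal.Quotient.mk I (twGen 𝒪 p m r j))
    (a : TWAlg 𝒪 p m r) : a ∈ I ↔ φ a = 0 := by
  refine ⟨hI a, fun ha => ?_⟩
  have := AlgHom.congr_fun (twAlg_hom_ext (φ := ψ.comp φ) (ψ := Ideal.Quotient.mkₐ 𝒪 I) h) a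
  rw [AlgHom.comp_apply, ha, map_zero, Ideal.Quotient.mkₐ_eq_mk] at this
  exact Ideal.Quotient.eq_zero_iff_mem.mp this.symm

theorem smul_mem_iff_of_hom {B : Type} [CommRing B] [Algebra 𝒪 B] [IsAddTorsionFree B]
    {I : Ideal (TWAlg 𝒪 p m r)} (φ : TWAlg 𝒪 p m r →ₐ[𝒪] B)
    (hφ : ∀ a, a ∈ I ↔ φ a = 0) {k : ℕ} (hk : k ≠ 0) {a : TWAlg 𝒪 p m r}
    (ha : (k : TWAlg 𝒪 p m r) * a ∈ I) : a ∈ I := by
  rw [hφ, map_mul, map_natCast, ← nsmul_eq_mul] at ha
  exact (hφ a).mpr ((nsmul_eq_zero_iff_right hk).mp ha)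

/-- `ℤ`-torsion freeness modulo an ideal. -/
def Saturated {A : Type} [CommRing A] (I : Ideal A) : Prop :=
  ∀ k : ℕ, k ≠ 0 → ∀ a : A, (k : A) * a ∈ I → a ∈ I

/-- The ideal cutting out level `p^n`. -/
def levelIdeal (𝒪 : Type) [CommRing 𝒪] (p m r n : ℕ) : Ideal (TWAlg 𝒪 p m r) :=
  Ideal.span (Set.range fun j => twGen 𝒪 p m r j ^ p ^ n - 1)

theorem twGen_pow_of_le {n : ℕ} (hnm : n ≤ m) (j : Fin r) :
    twGen 𝒪 p n r j ^ p ^ m = 1 := by
  obtain ⟨l, rfl⟩ := Nat.exists_eq_add_of_le hnm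
  rw [pow_add, pow_mul, twGen_pow, one_pow]

/-- The group ring of level `p^n`. -/
def levelMap {n : ℕ} (hnm : n ≤ m) : TWAlg 𝒪 p m r →ₐ[𝒪] TWAlg 𝒪 p n r :=
  twLift (twGen 𝒪 p n r) (twGen_pow_of_le hnm)

theorem mem_levelIdeal_iff {n : ℕ} (hnm : n ≤ m) (a : TWAlg 𝒪 p m r) :
    a ∈ levelIdeal 𝒪 p m r n ↔ levelMap hnm a = 0 := by
  refine ker_eq_of_hom (levelMap hnm)
    (twLift (fun j => Ideal.Quotient.mk (levelIdeal 𝒪 p m r n) (twGen 𝒪 p m r j)) fun j => ?_)
    (fun a ha => ?_) (fun j => ?_) a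
  · rw [← map_pow, ← map_one (Ideal.Quotient.mk _), Ideal.Quotient.eq]
    exact Ideal.subset_span ⟨j, rfl⟩
  · refine (Ideal.span_le (I := RingHom.ker (levelMap (𝒪 := 𝒪) (r := r) hnm).toRingHom)).mpr ?_ ha
    rintro _ ⟨j, rfl⟩
    simp [levelMap, twLift_twGen, twGen_pow]
  · rw [levelMap, twLift_twGen, twLift_twGen]

theorem levelMap_surjective {n : ℕ} (hnm : n ≤ m) :
    Function.Surjective (levelMap (𝒪 := 𝒪) (p := p) (r := r) hnm) := by
  intro y
  induction y using MonoidAlgebra.induction_on with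
  | of g =>
    refine ⟨∏ j, twGen 𝒪 p m r j ^ (Multiplicative.toAdd (g j)).val, ?_⟩
    rw [map_prod, of_eq_prod]
    exact Finset.prod_congr rfl fun j _ => by rw [map_pow, levelMap, twLift_twGen]
  | add a b ha hb =>
    obtain ⟨a, rfl⟩ := ha; obtain ⟨b, rfl⟩ := hb
    exact ⟨a + b, map_add _ _ _⟩
  | smul c a ha =>
    obtain ⟨a, rfl⟩ := ha
    exact ⟨c • a, map_smul _ _ _⟩

theorem levelIdeal_le_span {n : ℕ} :
    levelIdeal 𝒪 p m r n ≤ Ideal.span (Set.range fun j => twGen 𝒪 p m r j - 1) := by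
  rw [levelIdeal, Ideal.span_le]
  rintro _ ⟨j, rfl⟩
  refine Ideal.mem_of_dvd _ ?_ (Ideal.subset_span ⟨j, rfl⟩)
  exact sub_one_dvd_pow_sub_one _ _

theorem saturated_levelIdeal [IsAddTorsionFree 𝒪] {n : ℕ} (hnm : n ≤ m) :
    Saturated (levelIdeal 𝒪 p m r n) :=
  fun _ hk _ ha => smul_mem_iff_of_hom _ (mem_levelIdeal_iff hnm) hk ha

theorem saturated_span_twGen_sub_one [IsAddTorsionFree 𝒪] (i : Fin r) :
    Saturated (Ideal.span {twGen 𝒪 p m r i - 1}) := by
  classical
  have hy : ∀ j, Function.update (twGen 𝒪 p m r) i 1 j ^ p ^ m = 1 := fun j => by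
    rcases eq_or_ne j i with rfl | h
    · simp
    · rw [Function.update_of_ne h, twGen_pow]
  refine fun _ hk _ ha => smul_mem_iff_of_hom (twLift _ hy)
    (ker_eq_of_hom (twLift _ hy) (Ideal.Quotient.mkₐ 𝒪 _) (fun a ha => ?_) fun j => ?_) hk ha
  · refine (Ideal.span_le (I := RingHom.ker (twLift (𝒪 := 𝒪) _ hy).toRingHom)).mpr ?_ ha
    intro x hx
    rw [Set.mem_singleton_iff] at hx
    subst hx
    simp [twLift_twGen]
  · rw [twLift_twGen, Ideal.Quotient.mkₐ_eq_mk]
    rcases eq_or_ne j i with rfl | h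
    · rw [Function.update_self, Ideal.Quotient.eq]
      exact Ideal.mem_span_singleton'.2 ⟨-1, by rw [neg_one_mul, neg_sub]⟩
    · rw [Function.update_of_ne h]

theorem saturated_ramSpan [IsAddTorsionFree 𝒪] (hp : 1 < p) (hm : 0 < m) (i : Fin r) :
    Saturated (Ideal.span ({∑ j ∈ Finset.range p, twGen 𝒪 p m r i ^ j} ∪
      (fun j => twGen 𝒪 p m r j - 1) '' {j | j ≠ i})) := by
  classical
  rcases subsingleton_or_nontrivial 𝒪 with h | h
  · have := MonoidAlgebra.instUnique (R := 𝒪) (M := TWGroup p m r)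
    intro k _ a _
    rw [Subsingleton.elim a 0]
    exact zero_mem _
  let f : Polynomial 𝒪 := ∑ j ∈ Finset.range p, Polynomial.X ^ j
  have hmon : f.Monic := Polynomial.monic_geom_sum_X (by omega)
  have : Module.Free 𝒪 (AdjoinRoot f) := .of_basis (AdjoinRoot.powerBasis' hmon).basis
  have : IsAddTorsionFree (AdjoinRoot f) :=
    Function.Injective.isAddTorsionFree
      (AdjoinRoot.powerBasis' hmon).basis.equivFun.toLinearMap.toAddMonoidHom
      (AdjoinRoot.powerBasis' hmon).basis.equivFun.injective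
  have hz : ∑ j ∈ Finset.range p, AdjoinRoot.root f ^ j = 0 := by
    have h := AdjoinRoot.eval₂_root f
    simpa [f, Polynomial.eval₂_finsetSum] using h
  have hy : ∀ j, Function.update (1 : Fin r → AdjoinRoot f) i (AdjoinRoot.root f) j ^ p ^ m = 1 :=
    fun j => by
      rcases eq_or_ne j i with rfl | h
      · rw [Function.update_self]
        have h1 : AdjoinRoot.root f ^ p = 1 := by
          rw [← sub_eq_zero, ← geom_sum_mul, hz, zero_mul]
        obtain ⟨l, rfl⟩ := Nat.exists_eq_add_of_le hm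
        rw [pow_add, Nat.succ_eq_add_one, zero_add, pow_one, pow_mul, h1, one_pow]
      · rw [Function.update_of_ne h, Pi.one_apply, one_pow]
  set I := Ideal.span ({∑ j ∈ Finset.range p, twGen 𝒪 p m r i ^ j} ∪
      (fun j => twGen 𝒪 p m r j - 1) '' {j | j ≠ i})
  have hroot : Polynomial.aeval (Ideal.Quotient.mk I (twGen 𝒪 p m r i)) f = 0 := by
    simp only [f, map_sum, map_pow, Polynomial.aeval_X]
    rw [← (Ideal.Quotient.mk I).map_zero]
    simp only [← map_pow, ← map_sum]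
    rw [Ideal.Quotient.eq, sub_zero]
    exact Ideal.subset_span (Or.inl rfl)
  refine fun _ hk _ ha => smul_mem_iff_of_hom (twLift _ hy)
    (ker_eq_of_hom (twLift _ hy) (AdjoinRoot.liftAlgHom f _ (Ideal.Quotient.mk I (twGen 𝒪 p m r i))
      (show Polynomial.eval₂ (↑(Algebra.ofId 𝒪 (TWAlg 𝒪 p m r ⧸ I)) : 𝒪 →+* TWAlg 𝒪 p m r ⧸ I) _ f = 0 from hroot)) (fun a ha => ?_) fun j => ?_)
    hk ha
  · refine (Ideal.span_le (I := RingHom.ker (twLift (𝒪 := 𝒪) _ hy).toRingHom)).mpr ?_ ha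
    rintro x (rfl | ⟨j, hj, rfl⟩)
    · simpa [twLift_twGen] using hz
    · simp [twLift_twGen, Function.update_of_ne (show j ≠ i from hj)]
  · rw [twLift_twGen]
    rcases eq_or_ne j i with rfl | h
    · rw [Function.update_self, AdjoinRoot.liftAlgHom_root]
    · rw [Function.update_of_ne h, Pi.one_apply, map_one, eq_comm, ← map_one (Ideal.Quotient.mk I),
        Ideal.Quotient.eq]
      exact Ideal.subset_span (Or.inr ⟨j, h, rfl⟩)

theorem span_twGen_sub_one_le [IsLocalRing (TWAlg 𝒪 p m r)] [Nontrivial 𝒪] (i : Fin r) :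
    Ideal.span {twGen 𝒪 p m r i - 1} ≤ maximalIdeal (TWAlg 𝒪 p m r) := by
  rw [Ideal.span_le, Set.singleton_subset_iff, SetLike.mem_coe, mem_maximalIdeal, mem_nonunits_iff]
  intro hu
  have h := hu.map (twAug 𝒪 p m r)
  rw [map_sub, twAug_twGen, map_one, sub_self] at h
  exact not_isUnit_zero h

section Module

variable {A : Type} [CommRing A] {M : Type} [AddCommGroup M] [Module A M] {ι : Type} [Fintype ι]

/-- Membership in `I • M` in coordinates. -/
theorem mem_smul_top_iff_repr (b : Module.Basis ι A M) (I : Ideal A) (x : M) :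
    x ∈ I • (⊤ : Submodule A M) ↔ ∀ i, b.repr x i ∈ I := by
  refine ⟨fun hx i => ?_, fun h => ?_⟩
  · refine Submodule.smul_induction_on hx (fun a ha y _ => ?_) (fun y z hy hz => ?_)
    · rw [map_smul, Finsupp.smul_apply, smul_eq_mul]
      exact I.mul_mem_right _ ha
    · rw [map_add, Finsupp.add_apply]
      exact add_mem hy hz
  · rw [← b.sum_repr x]
    exact Submodule.sum_mem _ fun i _ => Submodule.smul_mem_smul (h i) Submodule.mem_top

theorem smul_top_saturated (b : Module.Basis ι A M) {I : Ideal A} (hI : Saturated I) {k : ℕ}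
    (hk : k ≠ 0) {x : M} (hx : (k : A) • x ∈ I • (⊤ : Submodule A M)) :
    x ∈ I • (⊤ : Submodule A M) := by
  rw [mem_smul_top_iff_repr b] at hx ⊢
  intro i
  have := hx i
  rw [map_smul, Finsupp.smul_apply, smul_eq_mul] at this
  exact hI k hk _ this

variable {𝒪' : Type} [CommRing 𝒪'] [Algebra 𝒪' A]

/-- Endomorphisms act on the quotient by `I • M`. -/
def descend (I : Ideal A) :
    Module.End A M →ₐ[A] Module.End A (M ⧸ I • (⊤ : Submodule A M)) where
  toFun f := Submodule.mapQ _ _ f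
    (Submodule.map_le_iff_le_comap.1 (by
      rw [Submodule.map_smul'']; exact Submodule.smul_mono le_rfl le_top))
  map_one' := by ext; rfl
  map_mul' f g := by ext; rfl
  map_zero' := by ext; rfl
  map_add' f g := by ext; rfl
  commutes' a := by ext; rfl

@[simp] theorem descend_mk (I : Ideal A) (f : Module.End A M) (x : M) :
    descend I f (Submodule.Quotient.mk x) = Submodule.Quotient.mk (f x) := rfl

theorem descend_algebraMap_eq_zero {I : Ideal A} {a : A} (ha : a ∈ I) :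
    algebraMap A (Module.End A (M ⧸ I • (⊤ : Submodule A M))) a = 0 := by
  ext x
  show Submodule.Quotient.mk (a • x) = 0
  rw [Submodule.Quotient.mk_eq_zero]
  exact Submodule.smul_mem_smul ha Submodule.mem_top

theorem end_quotient_torsionFree (b : Module.Basis ι A M) {I : Ideal A} (hI : Saturated I)
    {k : ℕ} (hk : k ≠ 0) {f : Module.End A (M ⧸ I • (⊤ : Submodule A M))}
    (hf : (k : Module.End A (M ⧸ I • (⊤ : Submodule A M))) * f = 0) : f = 0 := by
  refine LinearMap.ext fun z => ?_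
  obtain ⟨y, hy⟩ := Submodule.Quotient.mk_surjective _ (f z)
  have h := LinearMap.congr_fun hf z
  rw [Module.End.mul_apply, ← hy, Module.End.natCast_apply, ← Submodule.Quotient.mk_smul,
    LinearMap.zero_apply, Submodule.Quotient.mk_eq_zero, ← Nat.cast_smul_eq_nsmul A] at h
  rw [← hy, LinearMap.zero_apply, Submodule.Quotient.mk_eq_zero]
  exact smul_top_saturated b hI hk h

theorem finite_quotient [Module 𝒪' M] [IsScalarTower 𝒪' A M] [Module.Finite 𝒪' M] (I : Ideal A) :
    Module.Finite 𝒪' (M ⧸ I • (⊤ : Submodule A M)) :=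
  Module.Finite.of_surjective ((I • (⊤ : Submodule A M)).mkQ.restrictScalars 𝒪')
    (Submodule.mkQ_surjective _)

theorem nontrivial_quotient [Nontrivial M] [IsLocalRing A] [Module.Finite A M] {I : Ideal A}
    (hI : I ≤ maximalIdeal A) : Nontrivial (M ⧸ I • (⊤ : Submodule A M)) := by
  rw [Submodule.Quotient.nontrivial_iff]
  exact ((Submodule.top_ne_ideal_smul_of_le_jacobson_annihilator
    (hI.trans (IsLocalRing.maximalIdeal_le_jacobson _)))).symm

end Module

end Fermat.Agent.R59.TWLevel
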