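import Fermat.Agent.R59.TWData
import Fermat.Agent.R59.LocalModule
import Fermat.Agent.Datum.Local
import Fermat.Agent.R59.TWLevel.Algebra
import Fermat.Agent.R59.TWLevel.GroupQuot

/-!
# Hecke operators on a Taylor–Wiles module
-/

set_option autoImplicit false
set_option synthInstance.maxHeartbeats 400000
set_option linter.unusedSectionVars false

noncomputable section

open IsLocalRing CuspForm

namespace Fermat.Agent.R59.TWLevel

open Fermat.Agent.TW.Mod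

section Level

variable {p : ℕ} {k : Kind} {A B : Finset ℕ}

theorem mixLevel_ne_zero (hp : p ≠ 0) (h : ∀ q ∈ A ∪ B, q.Prime) : mixLevel p k A B ≠ 0 := by
  refine mul_ne_zero (mul_ne_zero ?_ (pow_ne_zero _ ?_)) (pow_ne_zero _ hp)
  · exact Finset.prod_ne_zero_iff.2 fun q hq => (h q (Finset.mem_union_left _ hq)).ne_zero
  · exact Finset.prod_ne_zero_iff.2 fun q hq => (h q (Finset.mem_union_right _ hq)).ne_zero

theorem mem_of_prime_dvd_mixLevel (hp : p.Prime) (h : ∀ q ∈ A ∪ B, q.Prime) (ℓ : ℕ) (hℓ : ℓ.Prime)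
    (hdvd : ℓ ∣ mixLevel p k A B) : ℓ ∈ (↑(insert p (A ∪ B)) : Set ℕ) := by
  rw [Finset.mem_coe, Finset.mem_insert, Finset.mem_union]
  rcases hℓ.dvd_mul.1 hdvd with h1 | h1
  · rcases hℓ.dvd_mul.1 h1 with h2 | h2
    · obtain ⟨q, hq, h3⟩ := (Prime.dvd_finsetProd_iff hℓ.prime _).1 h2
      exact Or.inr (Or.inl ((Nat.prime_dvd_prime_iff_eq hℓ (h q (Finset.mem_union_left _ hq))).1 h3 ▸ hq))
    · obtain ⟨q, hq, h3⟩ := (Prime.dvd_finsetProd_iff hℓ.prime _).1 (hℓ.dvd_of_dvd_pow h2)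
      exact Or.inr (Or.inr ((Nat.prime_dvd_prime_iff_eq hℓ (h q (Finset.mem_union_right _ hq))).1 h3 ▸ hq))
  · exact Or.inl ((Nat.prime_dvd_prime_iff_eq hℓ hp).1 (hℓ.dvd_of_dvd_pow h1))

end Level

section Generators

variable {N : ℕ} [NeZero N] {S : Set ℕ} {E : Type} [Ring E]

/-- Away from the level the Hecke algebra is generated by the `T_ℓ`. -/
theorem map_mem_of_forall_T (hSN : ∀ q : ℕ, q.Prime → q ∣ N → q ∈ S)
    (Φ : ↥(heckeAlgebra N 2 S) →+* E) (S' : Subring E)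
    (h : ∀ (ℓ : ℕ) (hℓ : ℓ.Prime) (hℓN : ¬ ℓ ∣ N) (hℓS : ℓ ∉ S),
      Φ (heckeAlgebra.T hℓ hℓN hℓS) ∈ S') (t : ↥(heckeAlgebra N 2 S)) : Φ t ∈ S' := by
  obtain ⟨t, ht⟩ := t
  induction ht using Algebra.adjoin_induction with
  | mem x hx =>
    rcases hx with ⟨ℓ, hℓ, hℓN, hℓS, rfl⟩ | ⟨q, hqN, hq, hqS, rfl⟩
    · exact h ℓ hℓ hℓN hℓS
    · exact absurd (hSN q hq hqN) hqS
  | algebraMap n =>
    have e := congrArg Φ (show (n : ↥(heckeAlgebra N 2 S)) =
      ⟨algebraMap ℤ _ n, algebraMap_mem _ n⟩ from Subtype.ext (by simp))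
    rw [map_intCast] at e
    exact e ▸ intCast_mem S' n
  | add x y hx hy ihx ihy =>
    rw [show (⟨x + y, _⟩ : ↥(heckeAlgebra N 2 S)) = ⟨x, hx⟩ + ⟨y, hy⟩ from rfl, map_add]
    exact add_mem ihx ihy
  | mul x y hx hy ihx ihy =>
    rw [show (⟨x * y, _⟩ : ↥(heckeAlgebra N 2 S)) = ⟨x, hx⟩ * ⟨y, hy⟩ from rfl, map_mul]
    exact mul_mem ihx ihy

variable {𝒪 : Type} [CommRing 𝒪] [IsDomain 𝒪] [IsDiscreteValuationRing 𝒪]
  [IsAdicComplete (maximalIdeal 𝒪) 𝒪] [Algebra 𝒪 E] {θ : heckeAlgebra N 2 S →+* ResidueField 𝒪}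
  [Fact (HasIntegralStructure N 2)]

/-- A subalgebra containing the images of the `T_ℓ` contains the image of the local algebra. -/
theorem mem_of_forall_T (hSN : ∀ q : ℕ, q.Prime → q ∣ N → q ∈ S)
    (Ψ : heckeLocal N S 𝒪 θ →ₐ[𝒪] E) (S' : Subalgebra 𝒪 E)
    (h : ∀ (ℓ : ℕ) (hℓ : ℓ.Prime) (hℓN : ¬ ℓ ∣ N) (hℓS : ℓ ∉ S),
      Ψ (heckeLocal.π N S 𝒪 θ (heckeAlgebra.T hℓ hℓN hℓS)) ∈ S')
    (z : heckeLocal N S 𝒪 θ) : Ψ z ∈ S' := by
  have hz : z ∈ Algebra.adjoin 𝒪 (Set.range (heckeLocal.π N S 𝒪 θ)) := by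
    rw [Datum.adjoin_range_heckeLocal_π]; trivial
  induction hz using Algebra.adjoin_induction with
  | mem x hx =>
    obtain ⟨t, rfl⟩ := hx
    exact map_mem_of_forall_T hSN (Ψ.toRingHom.comp (heckeLocal.π N S 𝒪 θ)) S'.toSubring h t
  | algebraMap c => rw [AlgHom.commutes]; exact S'.algebraMap_mem c
  | add x y _ _ hx hy => rw [map_add]; exact add_mem hx hy
  | mul x y _ _ hx hy => rw [map_mul]; exact mul_mem hx hy

end Generators

section Nilp

variable {𝒪 : Type} [CommRing 𝒪] [IsLocalRing 𝒪] {R : Type} [CommRing R] [Algebra 𝒪 R]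
  {X : Type} [AddCommGroup X] [Module R X] [Module 𝒪 X] [IsScalarTower 𝒪 R X]

theorem nilpModM_iff (f : Module.End R X) : NilpModM (𝒪 := 𝒪) f ↔
    ∃ j : ℕ, ∀ x : X, (f ^ j) x ∈ maximalIdeal 𝒪 • (⊤ : Submodule 𝒪 X) := by
  rw [NilpModM, IsNilpotent]
  refine exists_congr fun j => ?_
  rw [← map_pow, LinearMap.ext_iff]
  refine ⟨fun h x => ?_, fun h z => ?_⟩
  · have := h (Submodule.Quotient.mk x)
    exact (Submodule.Quotient.mk_eq_zero _).1 this
  · obtain ⟨x, rfl⟩ := Submodule.Quotient.mk_surjective _ z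
    exact (Submodule.Quotient.mk_eq_zero _).2 (h x)

theorem nilpModM_descend (I : Ideal R) {f : Module.End R X} (h : NilpModM (𝒪 := 𝒪) f) :
    NilpModM (𝒪 := 𝒪) (descend I f) := by
  rw [nilpModM_iff] at h ⊢
  obtain ⟨j, hj⟩ := h
  refine ⟨j, fun z => ?_⟩
  obtain ⟨x, rfl⟩ := Submodule.Quotient.mk_surjective _ z
  rw [← map_pow, descend_mk]
  have := Submodule.mem_map_of_mem (f := (I • (⊤ : Submodule R X)).mkQ.restrictScalars 𝒪) (hj x)
  rw [Submodule.map_smul''] at this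
  exact Submodule.smul_mono le_rfl le_top this

/-- A generator minus a lift of its eigenvalue is nilpotent modulo `𝔪` on the localised part. -/
theorem nilpModM_restrict [IsNoetherianRing 𝒪] [IsAdicComplete (maximalIdeal 𝒪) 𝒪]
    [Module.Finite 𝒪 (Module.End R X)] {ι : Type} {F : ι → Module.End R X}
    {lam : ι → ResidueField 𝒪} (hc : ∀ i j, Commute (F i) (F j)) (h : Occurs 𝒪 F lam) (i : ι)
    (a : 𝒪) (ha : residue 𝒪 a = lam i)
    (hst : ∀ x ∈ LinearMap.range (h.idem hc), F i x ∈ LinearMap.range (h.idem hc)) :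
    NilpModM (𝒪 := 𝒪) ((F i).restrict hst -
      algebraMap 𝒪 (Module.End R (LinearMap.range (h.idem hc))) a) := by
  set P := LinearMap.range (h.idem hc) with hP
  have hch : h.char (famGen 𝒪 F i - algebraMap 𝒪 _ a) = 0 :=
    (map_sub h.char.toLinearMap _ _).trans (by
      rw [AlgHom.toLinearMap_apply, AlgHom.toLinearMap_apply, h.char_gen, AlgHom.commutes, ← ha]
      exact sub_self _)
  obtain ⟨j, hj⟩ := exists_pow_idem_mem hc h hch
  rw [nilpModM_iff]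
  refine ⟨j, fun x => ?_⟩
  have hx : h.idem hc x.1 = x.1 := (mem_range_iff_of_idem (h.idem_mul_idem hc)).1 x.2
  have key : ∀ (j : ℕ) (x : P),
      ((((F i).restrict hst - algebraMap 𝒪 (Module.End R P) a) ^ j) x).1 =
        ((F i - algebraMap 𝒪 _ a) ^ j) x.1 := by
    intro j
    induction j with
    | zero => intro x; rfl
    | succ j ih =>
      intro x
      rw [pow_succ, pow_succ, Module.End.mul_apply, Module.End.mul_apply, ih]
      rfl
  have hm := hj x.1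
  rw [hx] at hm
  change ((F i - algebraMap 𝒪 _ a) ^ j) x.1 ∈ _ at hm
  rw [← key] at hm
  have e : P.restrictScalars 𝒪 = Submodule.map (P.subtype.restrictScalars 𝒪) ⊤ := by
    ext y
    exact ⟨fun hy => ⟨⟨y, hy⟩, trivial, rfl⟩, by rintro ⟨z, -, rfl⟩; exact z.2⟩
  rw [e, ← Submodule.map_smul''] at hm
  obtain ⟨y, hy, hye⟩ := hm
  rwa [← show y = _ from Subtype.ext hye]

/-- A scalar congruent to `1` does not change nilpotence. -/
theorem nilpModM_smul_sub [IsLocalRing R] [Module.Finite 𝒪 R] {c : R} (hc1 : c - 1 ∈ maximalIdeal R)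
    {f : Module.End R X} {a : 𝒪} (hT : NilpModM (𝒪 := 𝒪) (f - algebraMap 𝒪 _ a)) :
    NilpModM (𝒪 := 𝒪) (c • f - algebraMap 𝒪 _ a) := by
  obtain ⟨j, hj⟩ := exists_pow_mem_map (R := 𝒪) hc1
  rw [show c • f - algebraMap 𝒪 _ a =
      ((c - 1) • (1 : Module.End R X)) * f + (f - algebraMap 𝒪 _ a) by
    rw [smul_mul_assoc, one_mul, sub_smul, one_smul]
    abel]
  refine NilpModM.add ?_ (NilpModM.mul_right ((Commute.one_left _).smul_left _)
    (NilpModM.smul_one_of_mem hj)) hT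
  rw [smul_mul_assoc, one_mul]
  exact ((Commute.refl f).sub_right
    (show Commute f (algebraMap 𝒪 _ a) from (Algebra.commutes a f).symm)).smul_left (c - 1)

end Nilp

section Module

variable {W : WeierstrassCurve ℤ} {p : ℕ} {k : Kind} {U : Setup W p k} {m r : ℕ}
  (T : TWPrimes U m r) [hp : Fact p.Prime] [NeZero T.level]
  (hadm : TW.Mod.Admissible (epsOf T.chi))
  (hM : Occurs U.𝒪 (heckeFam U.𝒪 T.level (↑(minSet W p) : Set ℕ))
    (raiseLam T.primes T.α (TWPrimes.lam (U := U))))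

theorem finite_twMod [IsLocalRing (TWAlg U.𝒪 p m r)]
    [Module.Finite (TWAlg U.𝒪 p m r) (T.twMod hadm hM)] : Module.Finite U.𝒪 (T.twMod hadm hM) :=
  Module.Finite.trans (TWAlg U.𝒪 p m r) _

set_option maxHeartbeats 1600000 in
/-- `η(ℓ)⁻¹ T_ℓ - a_ℓ` is nilpotent modulo `𝔪`. -/
theorem nilpModM_untwistedOp [IsLocalRing (TWAlg U.𝒪 p m r)]
    [Module.Finite (TWAlg U.𝒪 p m r) (T.twMod hadm hM)]
    (i : PrimeIdx (↑(minSet W p) : Set ℕ)) (hi : i.1 ∉ T.primes) :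
    NilpModM (𝒪 := U.𝒪) (T.untwistedOp hadm hM i - algebraMap U.𝒪 _ (U.a i.1)) := by
  have : NeZero p := ⟨hp.out.ne_zero⟩
  have := finite_end_h1 (𝒪 := U.𝒪) hadm
  refine nilpModM_smul_sub ?_ (nilpModM_restrict (twFam_comm T.chi (↑(minSet W p) : Set ℕ))
    (occurs_twFam hadm T.twAug_chi hM) i (U.a i.1) (by rw [raiseLam, if_neg hi]; rfl) _)
  refine IsLocalRing.le_maximalIdeal (RingHom.ker_ne_top (twAug U.𝒪 p m r).toRingHom) ?_
  rw [RingHom.mem_ker, map_sub, map_one, sub_eq_zero]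
  show twAug U.𝒪 p m r (((chiPrime T.eta i.1)⁻¹ : (TWAlg U.𝒪 p m r)ˣ) : TWAlg U.𝒪 p m r) = 1
  rw [chiPrime]
  split_ifs
  · rw [← map_inv]; exact T.twAug_eta _
  · rw [inv_one, Units.val_one, map_one]

end Module

end Fermat.Agent.R59.TWLevel
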