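import Fermat.Agent.R59.DefRings
import Fermat.Agent.R59.Setup
import Fermat.Agent.R59.TraceEquiv
import Fermat.Agent.R59.TWLevel.Algebra
import Fermat.Agent.TWGal.RQ

/-!
# The Galois side of one Taylor–Wiles level
-/

set_option autoImplicit false
set_option linter.unusedSectionVars false

noncomputable section

open IsLocalRing

namespace Fermat.Agent.R59.TWLevel

open Fermat.Agent

local notation "Γℚ" => (AlgebraicClosure ℚ ≃ₐ[ℚ] AlgebraicClosure ℚ)

/-- A closed condition is stable under base change to complete test rings. -/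
theorem closed_baseChange {𝒪 : Type} [CommRing 𝒪] [IsLocalRing 𝒪] {𝒟 : DefCond.Cond 𝒪}
    (h : DefCond.Closed 𝒪 𝒟) {A : Type} [CommRing A] [IsLocalRing A] [Algebra 𝒪 A]
    {B : Type} [CommRing B] [IsLocalRing B] [Algebra 𝒪 B] [IsNoetherianRing B]
    [IsLocalHom (algebraMap 𝒪 B)] (hres : Function.Surjective (residue B ∘ algebraMap 𝒪 B))
    (φ : A →ₐ[𝒪] B) (hφ : IsLocalHom (φ : A →+* B)) {ρ : GaloisRepAdic A} (hρ : 𝒟 ρ) :
    𝒟 (ρ.baseChangeAlong (φ : A →+* B) hφ) := by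
  refine h.limit ‹_› hres fun n _ hq => ?_
  have hloc : IsLocalHom (((Ideal.Quotient.mkₐ 𝒪 (maximalIdeal B ^ (n + 1))).comp φ :
      A →ₐ[𝒪] B ⧸ maximalIdeal B ^ (n + 1)) : A →+* B ⧸ maximalIdeal B ^ (n + 1)) :=
    ⟨fun a ha => hφ.map_nonunit a (hq.map_nonunit (φ a) ha)⟩
  exact h.of_isEquiv (Deform.isEquiv_symm' (TWGal.baseChangeAlong_comp ρ _ hφ _ hq hloc))
    (h.push (DefCond.isArtinianTestAlgebra_quotient n ‹_› hres) _ hloc hρ)

variable {𝒪 : Type} [CommRing 𝒪] {p : ℕ}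

theorem cond_mono {k : Kind} {S Smin Smin' : Finset ℕ} (h : Smin ⊆ Smin') {A : Type} [CommRing A]
    [IsLocalRing A] [Algebra 𝒪 A] {ρ : GaloisRepAdic A} (hρ : cond k 𝒪 p S Smin' ρ) :
    cond k 𝒪 p S Smin ρ :=
  ⟨hρ.1, fun q hq => hρ.2 q (h hq)⟩

theorem cond_union_iff (k : Kind) {S Smin : Finset ℕ} {r : ℕ} {qv : Fin r → ℕ}
    [∀ i, NeZero (qv i)] (hqv : ∀ i, (qv i).Prime) (hS : ∀ i, qv i ∉ S) {A : Type} [CommRing A]
    [IsLocalRing A] [Algebra 𝒪 A] (ρ : GaloisRepAdic A) :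
    cond k 𝒪 p S Smin ρ ↔
      cond k 𝒪 p (S ∪ Finset.univ.image qv) Smin ρ ∧ ∀ i, ρ.IsUnramifiedAt (qv i) := by
  cases k <;>
    simp only [cond, baseCond, GaloisRep.flatCondition, GaloisRep.strictOrdinaryCondition,
      GaloisRep.ordinaryCondition, TWGal.unramified_outside_iff ρ hqv hS] <;>
    tauto

theorem detIsCyclotomic_of_cond {k : Kind} {S Smin : Finset ℕ} {A : Type} [CommRing A]
    [IsLocalRing A] [Algebra 𝒪 A] {ρ : GaloisRepAdic A} (h : cond k 𝒪 p S Smin ρ) :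
    ρ.DetIsCyclotomic p := by
  cases k <;> exact h.1.1

section Ring

variable [IsDomain 𝒪] [IsDiscreteValuationRing 𝒪] [IsAdicComplete (maximalIdeal 𝒪) 𝒪]
  [Finite (ResidueField 𝒪)] [hp : Fact p.Prime] {ρbar : ResidualGaloisRep (ResidueField 𝒪)}
  {k : Kind} {S Smin : Finset ℕ}

/-- The reduction `R_Q → R_∅`, with kernel the span of the diamond generators minus one. -/
theorem exists_reduction (hp2 : p ≠ 2) {r : ℕ} {qv : Fin r → ℕ} [∀ i, NeZero (qv i)]
    (DQ : GaloisRep.DeformationRingData 𝒪 ρbar (cond k 𝒪 p (S ∪ Finset.univ.image qv) Smin))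
    (D₀ : GaloisRep.DeformationRingData 𝒪 ρbar (cond k 𝒪 p S Smin))
    (hqv : ∀ i, (qv i).Prime) (hS : ∀ i, qv i ∉ S) (Dm : ∀ i, TWGal.Diamond DQ.ρ p (qv i))
    (gen : ∀ i, (ZMod (qv i))ˣ) :
    ∃ π : DQ.R →ₐ[𝒪] D₀.R, Function.Surjective π ∧ (∀ i, π ((Dm i).δ (gen i) : DQ.R) = 1) ∧
      ∃ hπ : IsLocalHom (π : DQ.R →+* D₀.R),
        (DQ.ρ.baseChangeAlong (π : DQ.R →+* D₀.R) hπ).IsEquiv D₀.ρ := by
  obtain ⟨π, hs, hker, hloc, he⟩ := TWGal.exists_surjective_ker_eq_augIdeal DQ D₀ hqv Dm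
    (fun A _ _ _ ρ => cond_union_iff k hqv hS ρ) (fun B _ _ _ f hf hsur => by
      have : IsNoetherianRing B := isNoetherianRing_of_surjective _ _ (f : DQ.R →+* B) hsur
      have : IsLocalHom (algebraMap 𝒪 B) := by
        rw [← f.comp_algebraMap]
        exact RingHom.isLocalHom_comp _ _
      refine closed_baseChange (closed_cond hp2 k _ _) ?_ f hf DQ.isOfType
      intro y
      obtain ⟨y, rfl⟩ := residue_surjective y
      obtain ⟨x, rfl⟩ := hsur y
      obtain ⟨c, hc⟩ := DQ.residue_surjective (residue DQ.R x)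
      refine ⟨c, ?_⟩
      have := congrArg (ResidueField.map (f : DQ.R →+* B)) hc
      simpa [ResidueField.map_residue] using this)
  refine ⟨π, hs, fun i => ?_, hloc, he⟩
  have hmem : ((Dm i).δ (gen i) : DQ.R) - 1 ∈ RingHom.ker (π : DQ.R →+* D₀.R) := by
    rw [hker]
    exact le_iSup (fun i => (Dm i).augIdeal) i (Ideal.subset_span ⟨gen i, rfl⟩)
  rw [RingHom.mem_ker, map_sub, map_one, sub_eq_zero] at hmem
  exact hmem

/-- Maps out of a deformation ring into the image of a complete local algebra are determined by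
the traces of Frobenius. -/
theorem algHom_eq_of_frobenius (hp2 : p ≠ 2)
    (D : GaloisRep.DeformationRingData 𝒪 ρbar (cond k 𝒪 p S Smin))
    {T : Type} [CommRing T] [IsLocalRing T] [IsNoetherianRing T]
    [IsAdicComplete (maximalIdeal T) T] [Algebra 𝒪 T] [IsLocalHom (algebraMap 𝒪 T)]
    (hres : Function.Surjective (residue T ∘ algebraMap 𝒪 T))
    {E : Type} [Ring E] [Nontrivial E] [Algebra 𝒪 E] (φ : T →ₐ[𝒪] E) (f g : D.R →ₐ[𝒪] E)
    (hf : ∀ x, f x ∈ φ.range) (hg : ∀ x, g x ∈ φ.range) (S' : Finset ℕ)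
    (hF : ∀ ℓ : ℕ, ℓ.Prime → ℓ ∉ S' → ∀ P : ValuationSubring (AlgebraicClosure ℚ),
      P.LiesOverPrime ℓ → ∀ σ : Γℚ, P.IsFrobeniusAt σ ℓ →
        f (LinearMap.trace D.R D.ρ.V (D.ρ.ρ σ)) = g (LinearMap.trace D.R D.ρ.V (D.ρ.ρ σ))) :
    f = g := by
  set J : Ideal T := RingHom.ker φ
  have : Nontrivial (T ⧸ J) := Ideal.Quotient.nontrivial_iff.mpr fun h => by
    have h1 : (1 : T) ∈ J := h ▸ Submodule.mem_top
    rw [RingHom.mem_ker, map_one] at h1
    exact one_ne_zero h1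
  have hmk : Function.Surjective (Ideal.Quotient.mk J) := Ideal.Quotient.mk_surjective
  have : IsLocalRing (T ⧸ J) := IsLocalRing.of_surjective' _ hmk
  have : IsLocalHom (Ideal.Quotient.mk J) := IsLocalHom.of_surjective _ hmk
  have : IsLocalHom (algebraMap T (T ⧸ J)) := ‹IsLocalHom (Ideal.Quotient.mk J)›
  have : IsAdicComplete (maximalIdeal (T ⧸ J)) (T ⧸ J) :=
    have : Module.Finite T (T ⧸ J) :=
      Module.Finite.of_surjective (Ideal.Quotient.mkₐ T J).toLinearMap hmk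
    IsLocalRing.isAdicComplete_of_module_finite (𝒪 := T)
  have : IsLocalHom (algebraMap 𝒪 (T ⧸ J)) := by
    rw [IsScalarTower.algebraMap_eq 𝒪 T (T ⧸ J)]
    exact RingHom.isLocalHom_comp _ _
  have hres' : Function.Surjective (residue (T ⧸ J) ∘ algebraMap 𝒪 (T ⧸ J)) := by
    intro y
    obtain ⟨y, rfl⟩ := residue_surjective y
    obtain ⟨x, rfl⟩ := hmk y
    obtain ⟨c, hc⟩ := hres (residue T x)
    refine ⟨c, ?_⟩
    have := congrArg (ResidueField.map (Ideal.Quotient.mk J)) hc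
    simp only [Function.comp_apply, ResidueField.map_residue] at this
    exact this
  let ι : T ⧸ J →ₐ[𝒪] E := Ideal.kerLiftAlg φ
  have hι : Function.Injective ι := Ideal.kerLiftAlg_injective φ
  have hrange : ∀ (h : D.R →ₐ[𝒪] E), (∀ x, h x ∈ φ.range) → ∀ x, h x ∈ ι.range := by
    intro h hh x
    obtain ⟨t, ht⟩ := hh x
    exact ⟨Ideal.Quotient.mk J t, (Ideal.kerLiftAlg_mk φ t).trans ht⟩
  let e := AlgEquiv.ofInjective ι hι
  let f' : D.R →ₐ[𝒪] T ⧸ J := e.symm.toAlgHom.comp (f.codRestrict _ (hrange f hf))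
  let g' : D.R →ₐ[𝒪] T ⧸ J := e.symm.toAlgHom.comp (g.codRestrict _ (hrange g hg))
  have hf' : ∀ x, ι (f' x) = f x := fun x =>
    congrArg Subtype.val (e.apply_symm_apply ⟨f x, hrange f hf x⟩)
  have hg' : ∀ x, ι (g' x) = g x := fun x =>
    congrArg Subtype.val (e.apply_symm_apply ⟨g x, hrange g hg x⟩)
  have hlf : IsLocalHom (f' : D.R →+* T ⧸ J) := isLocalHom_algHom hres' f'
  have key : f' = g' := algHom_ext_of_frobenius_trace D
    (detIsCyclotomic_of_cond D.isOfType) hp2 hres' f' g' hlf (isLocalHom_algHom hres' g')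
    (closed_baseChange (closed_cond hp2 k _ _) hres' f' hlf D.isOfType) S'
    fun ℓ hℓ hS P hP σ hσ => hι (by rw [hf', hg']; exact hF ℓ hℓ hS P hP σ hσ)
  exact AlgHom.ext fun x => by rw [← hf', ← hg', key]

end Ring

/-- If the specialisation is unipotent at `q`, the diamond operators map to unipotent elements. -/
theorem diamond_sq_zero {A B : Type} [CommRing A] [IsLocalRing A] [CommRing B] [IsLocalRing B]
    {ρ : GaloisRepAdic A} {q : ℕ} [NeZero q] (hq : q.Prime) (D : TWGal.Diamond ρ p q) (f : A →+* B)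
    (hf : IsLocalHom f) {ρ' : GaloisRepAdic B} (he : (ρ.baseChangeAlong f hf).IsEquiv ρ')
    (hu : ρ'.IsUnipotentOnInertiaAt q) (u : (ZMod q)ˣ) : (f (D.δ u : A) - 1) ^ 2 = 0 := by
  obtain ⟨e⟩ := he
  obtain ⟨σ, hσ, rfl⟩ := TWGal.cycMod_surjOn_inertia D.liesOver hq u
  let σ' : D.P.decompositionSubgroup ℚ := ⟨σ, Galois.inertia_le_decomposition _ hσ⟩
  let s := (D.split.baseChange f hf).ofEquiv e
  have h := s.charpoly_eq σ'
  rw [hu D.P D.liesOver σ hσ] at h
  have hc : (s.char 0 σ' : B) = f (D.δ (TWGal.cycMod q σ) : A) := by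
    show ((D.split.baseChange f hf).char 0 σ' : B) = _
    rw [D.split.baseChange_char, (D.char_inertia σ' hσ).1]
  have h' := congrArg (Polynomial.eval (s.char 0 σ' : B)) h
  simp only [Polynomial.eval_pow, Polynomial.eval_sub, Polynomial.eval_X, Polynomial.eval_one,
    Polynomial.eval_mul, Polynomial.eval_C, sub_self, zero_mul] at h'
  rwa [hc] at h'

end Fermat.Agent.R59.TWLevel
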