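import Fermat.Agent.R59.TWLevel.Core

/-!
# Diamond operators on a free module over the group ring

An operator of `p`-power order which is unipotent modulo `g_i - 1` is `1 + (g_i - 1) x`; without
fixed vectors on the component of order `p` it has `x` bijective.
-/

set_option autoImplicit false
set_option linter.unusedSectionVars false

noncomputable section

open IsLocalRing

namespace Fermat.Agent.R59.TWLevel

variable {𝒪 : Type} [CommRing 𝒪] [IsDomain 𝒪] [IsDiscreteValuationRing 𝒪]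
  [IsAdicComplete (maximalIdeal 𝒪) 𝒪] [Finite (ResidueField 𝒪)] [IsAddTorsionFree 𝒪]
  {p : ℕ} [hp : Fact p.Prime] {m r : ℕ}
  {M : Type} [AddCommGroup M] [Module (TWAlg 𝒪 p m r) M] [Module 𝒪 M]
  [IsScalarTower 𝒪 (TWAlg 𝒪 p m r) M] [Module.Free (TWAlg 𝒪 p m r) M]
  [Module.Finite (TWAlg 𝒪 p m r) M]

set_option maxHeartbeats 800000 in
/-- An operator of finite order, unipotent modulo `g_i - 1`, is `1 + (g_i - 1) x`. -/
theorem exists_eq_one_add (i : Fin r) (U : Module.End (TWAlg 𝒪 p m r) M)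
    (h2 : (descend (Ideal.span {twGen 𝒪 p m r i - 1}) U - 1) ^ 2 = 0) {v : ℕ}
    (hv : U ^ p ^ v = 1) :
    ∃ x : Module.End (TWAlg 𝒪 p m r) M,
      U = 1 + algebraMap (TWAlg 𝒪 p m r) _ (twGen 𝒪 p m r i - 1) * x := by
  have : NeZero p := ⟨hp.out.ne_zero⟩
  set X : TWAlg 𝒪 p m r := twGen 𝒪 p m r i - 1 with hX
  let b := Module.Free.chooseBasis (TWAlg 𝒪 p m r) M
  have h1 : descend (Ideal.span {X}) U = 1 :=
    eq_one_of_sq_zero (N := p ^ v) (fun a ha => end_quotient_torsionFree b
      (saturated_span_twGen_sub_one i) (pow_ne_zero _ hp.out.ne_zero) ha) h2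
      (by rw [← map_pow, hv, map_one])
  have hmem : ∀ j, ∃ y : M, X • y = U (b j) - b j := fun j => by
    have h := LinearMap.congr_fun h1 (Submodule.Quotient.mk (b j))
    rw [descend_mk, Module.End.one_apply, Submodule.Quotient.eq,
      Submodule.ideal_span_singleton_smul] at h
    obtain ⟨y, -, hy⟩ := (Submodule.mem_smul_pointwise_iff_exists _ _ _).1 h
    exact ⟨y, hy⟩
  choose y hy using hmem
  refine ⟨b.constr 𝒪 y, b.ext fun j => ?_⟩
  simp only [LinearMap.add_apply, Module.End.one_apply, Module.End.mul_apply,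
    Module.algebraMap_end_apply, Module.Basis.constr_basis]
  rw [hy]
  abel

set_option maxHeartbeats 800000 in
/-- Without fixed vectors on the component of order `p`, the factor `x` is surjective. -/
theorem surjective_of_ramified [IsLocalRing (TWAlg 𝒪 p m r)] (hp2 : p ≠ 2)
    (hpm : (p : 𝒪) ∈ maximalIdeal 𝒪) (hm : 0 < m) (i : Fin r)
    (U x : Module.End (TWAlg 𝒪 p m r) M)
    (hU : U = 1 + algebraMap (TWAlg 𝒪 p m r) _ (twGen 𝒪 p m r i - 1) * x) {v : ℕ}
    (hv : U ^ p ^ v = 1) (I : Ideal (TWAlg 𝒪 p m r))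
    (hI : I = Ideal.span ({∑ j ∈ Finset.range p, twGen 𝒪 p m r i ^ j} ∪
      (fun j => twGen 𝒪 p m r j - 1) '' {j | j ≠ i}))
    (hinj : ∀ y : M, U y - y ∈ I • (⊤ : Submodule (TWAlg 𝒪 p m r) M) → y ∈ I • (⊤ : Submodule (TWAlg 𝒪 p m r) M)) :
    Function.Surjective x := by
  have : NeZero p := ⟨hp.out.ne_zero⟩
  set X : TWAlg 𝒪 p m r := twGen 𝒪 p m r i - 1 with hX
  let b := Module.Free.chooseBasis (TWAlg 𝒪 p m r) M
  have hsat : Saturated I := hI ▸ saturated_ramSpan hp.out.one_lt hm i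
  have := finite_end_quotient (𝒪 := 𝒪) (M := M) I
  obtain ⟨z, hz⟩ := exists_pow_eq_one_add (E := Module.End _ (M ⧸ I • (⊤ : Submodule (TWAlg 𝒪 p m r) M)))
    (Λ := TWAlg 𝒪 p m r) hp2 hpm
    (fun a ha => end_quotient_torsionFree b hsat hp.out.ne_zero ha)
    (g := twGen 𝒪 p m r i)
    (descend_algebraMap_eq_zero (hI ▸ Ideal.subset_span (Or.inl rfl)))
    (U := descend I U) (x := descend I x) (by rw [hU, map_add, map_one, map_mul, AlgHom.commutes]) v
    (by rw [← map_pow, hv, map_one]) (fun e he => by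
      refine LinearMap.ext fun w => ?_
      obtain ⟨y, hy⟩ := Submodule.Quotient.mk_surjective _ (e w)
      have h := LinearMap.congr_fun he w
      rw [Module.End.mul_apply, ← hy, LinearMap.sub_apply, descend_mk, Module.End.one_apply,
        ← Submodule.Quotient.mk_sub, LinearMap.zero_apply, Submodule.Quotient.mk_eq_zero] at h
      rw [← hy, LinearMap.zero_apply, Submodule.Quotient.mk_eq_zero]
      exact hinj y h)
  have hmax : ∀ a : TWAlg 𝒪 p m r, twAug 𝒪 p m r a ∈ maximalIdeal 𝒪 →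
      a ∈ maximalIdeal (TWAlg 𝒪 p m r) := fun a ha =>
    (mem_maximalIdeal _).2 fun hu => (mem_maximalIdeal _).1 ha (hu.map (twAug 𝒪 p m r))
  have hXm : X ∈ maximalIdeal (TWAlg 𝒪 p m r) :=
    hmax _ (by rw [hX, map_sub, twAug_twGen, map_one, sub_self]; exact zero_mem _)
  have hIm : I ≤ maximalIdeal (TWAlg 𝒪 p m r) := by
    rw [hI, Ideal.span_le]
    rintro _ (rfl | ⟨j, -, rfl⟩)
    · refine hmax _ ?_
      simp only [map_sum, map_pow, twAug_twGen, one_pow, Finset.sum_const, Finset.card_range,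
        nsmul_eq_mul, mul_one]
      exact hpm
    · exact hmax _ (by rw [map_sub, twAug_twGen, map_one, sub_self]; exact zero_mem _)
  rw [← LinearMap.range_eq_top]
  refine top_le_iff.1 (Submodule.le_of_le_smul_of_le_jacobson_bot Module.Finite.fg_top
    (IsLocalRing.maximalIdeal_le_jacobson ⊥) fun y _ => ?_)
  obtain ⟨q, hq⟩ := Nat.exists_eq_add_of_le (Nat.one_le_iff_ne_zero.2
    (Nat.sub_ne_zero_of_lt hp.out.one_lt))
  obtain ⟨w, hw⟩ := Submodule.Quotient.mk_surjective _ (z (Submodule.Quotient.mk y))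
  have h := LinearMap.congr_fun hz (Submodule.Quotient.mk y)
  rw [← map_pow, descend_mk, LinearMap.add_apply, Module.End.one_apply, Module.End.mul_apply,
    Module.algebraMap_end_apply, ← hw, ← Submodule.Quotient.mk_smul, ← Submodule.Quotient.mk_add,
    Submodule.Quotient.eq] at h
  have hy : y = (x ^ (p - 1)) y + (-((x ^ (p - 1)) y - (y + X • w)) - X • w) := by abel
  rw [hy]
  refine Submodule.add_mem_sup ⟨(x ^ q) y, ?_⟩ ?_
  · rw [hq, pow_add, pow_one, Module.End.mul_apply]
  · exact sub_mem (neg_mem (Submodule.smul_mono hIm le_rfl h))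
      (Submodule.smul_mem_smul hXm Submodule.mem_top)

end Fermat.Agent.R59.TWLevel
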