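import Fermat.Agent.R59.TWLevel.Galois
import Fermat.Agent.R59.TWLevel.Hecke
import Fermat.Agent.R59.TopSplit
import Fermat.Agent.MF.IntStruct.Main

/-!
# The deformation ring acting through a local Hecke algebra
-/

set_option autoImplicit false
set_option synthInstance.maxHeartbeats 400000
set_option linter.unusedSectionVars false

noncomputable section

open IsLocalRing CuspForm

namespace Fermat.Agent.R59.TWLevel

local notation "Γℚ" => (AlgebraicClosure ℚ ≃ₐ[ℚ] AlgebraicClosure ℚ)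

variable {W : WeierstrassCurve ℤ} {p : ℕ} {k : Kind} [hp : Fact p.Prime]

/-- The action of a deformation ring on a module with an action of a Hecke algebra of mixed
level, with its factorisation through the local Hecke algebra. -/
theorem exists_action (hR : StmtHeckeRep) (hyp : CoreHyp W p k) (U : Setup W p k)
    (A B : Finset ℕ) (hAB : ∀ q ∈ A ∪ B, q.Prime ∧ q ≠ p) (hdisj : Disjoint A B)
    (hA : ramPrimes W p ⊆ A) {S Smin : Finset ℕ} (hS : insert p (A ∪ B) = S)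
    (hSmin : Smin ⊆ insert p A)
    (D : GaloisRep.DeformationRingData U.𝒪 U.ρbar (cond k.base U.𝒪 p S Smin))
    {R : Type} [CommRing R] [Algebra U.𝒪 R] {X : Type} [AddCommGroup X] [Module R X]
    [Module U.𝒪 X] [IsScalarTower U.𝒪 R X] [Module.Finite U.𝒪 X] [Nontrivial X]
    [NeZero (mixLevel p k.base A B)]
    [Fact (HasIntegralStructure (mixLevel p k.base A B) 2)]
    (Φ : ↥(heckeAlgebra (mixLevel p k.base A B) 2 (↑(insert p (A ∪ B)) : Set ℕ)) →+*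
      Module.End R X)
    (hnil : ∀ (ℓ : ℕ) (hℓ : ℓ.Prime) (hℓN : ¬ ℓ ∣ mixLevel p k.base A B)
      (hℓS : ℓ ∉ (↑(insert p (A ∪ B)) : Set ℕ)),
      NilpModM (𝒪 := U.𝒪) (Φ (heckeAlgebra.T hℓ hℓN hℓS) - algebraMap U.𝒪 _ (U.a ℓ))) :
    ∃ (θ : ↥(heckeAlgebra (mixLevel p k.base A B) 2 (↑(insert p (A ∪ B)) : Set ℕ)) →+*
        ResidueField U.𝒪)
      (H : HeckeGaloisRepDatum (mixLevel p k.base A B) (↑(insert p (A ∪ B)) : Set ℕ) U.𝒪 θ
        (heckeLocal (mixLevel p k.base A B) (↑(insert p (A ∪ B)) : Set ℕ) U.𝒪 θ))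
      (Ψ : heckeLocal (mixLevel p k.base A B) (↑(insert p (A ∪ B)) : Set ℕ) U.𝒪 θ →ₐ[U.𝒪]
        Module.End R X)
      (f : D.R →ₐ[U.𝒪] heckeLocal (mixLevel p k.base A B) (↑(insert p (A ∪ B)) : Set ℕ) U.𝒪 θ)
      (hf : IsLocalHom (f : D.R →+*
        heckeLocal (mixLevel p k.base A B) (↑(insert p (A ∪ B)) : Set ℕ) U.𝒪 θ)),
      H.π = heckeLocal.π _ _ U.𝒪 θ ∧ U.IsResidChar _ _ θ ∧
      cond k.base U.𝒪 p (insert p (A ∪ B)) (insert p A) H.ρ ∧
      H.ρ.residual.IsEquiv (U.ρbar.baseChangeAlong (ResidueField.map (algebraMap U.𝒪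
        (heckeLocal (mixLevel p k.base A B) (↑(insert p (A ∪ B)) : Set ℕ) U.𝒪 θ)))) ∧
      (D.ρ.baseChangeAlong (f : D.R →+* _) hf).IsEquiv H.ρ ∧
      (∀ t, Ψ (H.π t) = Φ t) ∧
      ∀ (ℓ : ℕ) (hℓ : ℓ.Prime) (hℓN : ¬ ℓ ∣ mixLevel p k.base A B)
        (hℓS : ℓ ∉ (↑(insert p (A ∪ B)) : Set ℕ)) (P : ValuationSubring (AlgebraicClosure ℚ)),
        P.LiesOverPrime ℓ → ∀ σ : Γℚ, P.IsFrobeniusAt σ ℓ →
          Ψ (f (LinearMap.trace D.R D.ρ.V (D.ρ.ρ σ))) = Φ (heckeAlgebra.T hℓ hℓN hℓS) := by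
  have hSN := mem_of_prime_dvd_mixLevel (k := k.base) hp.out fun q hq => (hAB q hq).1
  obtain ⟨θ, hθ, Ψ, hΨ⟩ := exists_heckeLocal_action hSN Φ (fun ℓ => residue U.𝒪 (U.a ℓ))
    fun ℓ hℓ hℓN hℓS => ⟨U.a ℓ, rfl, hnil ℓ hℓ hℓN hℓS⟩
  obtain ⟨H, hHπ, hcond, hres⟩ := hR W p k hyp U k.base (Or.inl rfl) A B hAB hdisj hA θ hθ
  obtain ⟨f, ⟨hf, he⟩, -⟩ := D.universal _ H.residue_surjective H.ρ
    (cond_mono hSmin (hS ▸ hcond)) hres
  have hΨ' : ∀ t, Ψ (H.π t) = Φ t := fun t => by rw [hHπ]; exact hΨ t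
  refine ⟨θ, H, Ψ, f, hf, hHπ, hθ, hcond, hres, he, hΨ', fun ℓ hℓ hℓN hℓS P hP σ hσ => ?_⟩
  rw [← hΨ']
  refine congrArg Ψ ?_
  rw [← trace_eq_of_charpoly (H.charpoly_frob ℓ hℓ hℓN hℓS P hP σ hσ), ← trace_eq_of_isEquiv he,
    trace_baseChangeAlong]
  rfl

/-- An algebra map descends along a surjection when its generators do. -/
theorem exists_descent {𝒪 T : Type} [CommRing 𝒪] [CommRing T] [Algebra 𝒪 T] {R : Type} [CommRing R]
    [Algebra 𝒪 R] {M : Type} [AddCommGroup M] [Module R M] [Module 𝒪 M] [IsScalarTower 𝒪 R M]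
    {M₀ : Type} [AddCommGroup M₀] [Module 𝒪 M₀] (π : M →ₗ[𝒪] M₀) (hπ : Function.Surjective π)
    (Ψ : T →ₐ[𝒪] Module.End R M) (S₀ : Subalgebra 𝒪 (Module.End 𝒪 M₀))
    (h : ∀ z, ∃ a ∈ S₀, ∀ x, π (Ψ z x) = a (π x)) :
    ∃ g : T →ₐ[𝒪] Module.End 𝒪 M₀, (∀ z x, π (Ψ z x) = g z (π x)) ∧ ∀ z, g z ∈ S₀ := by
  choose a ha1 ha2 using h
  have key : ∀ z (b : Module.End 𝒪 M₀), (∀ x, π (Ψ z x) = b (π x)) → a z = b := fun z b hb =>
    LinearMap.ext fun y => by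
      obtain ⟨x, rfl⟩ := hπ y
      rw [← ha2, hb]
  refine ⟨{ toFun := a, map_one' := key 1 1 fun x => ?_, map_mul' := fun z w => key _ _ fun x => ?_
            map_zero' := key 0 0 fun x => ?_, map_add' := fun z w => key _ _ fun x => ?_
            commutes' := fun c => key _ _ fun x => ?_ }, ha2, ha1⟩
  · rw [map_one]; rfl
  · rw [map_mul, Module.End.mul_apply, Module.End.mul_apply, ha2, ha2]
  · rw [map_zero, LinearMap.zero_apply, LinearMap.zero_apply, map_zero]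
  · rw [map_add, LinearMap.add_apply, LinearMap.add_apply, map_add, ha2, ha2]
  · rw [AlgHom.commutes, Module.algebraMap_end_apply, Module.algebraMap_end_apply, map_smul]

end Fermat.Agent.R59.TWLevel
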