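import Fermat.Agent.R59.Patch
import Fermat.Agent.R59.UnitBasis
import Fermat.Agent.TW.Mod.LocPart
import Fermat.Agent.R59.TWLevel.Algebra
import Fermat.Agent.R59.TWLevel.GroupQuot

/-!
# From a free module with diamond operators to a Taylor–Wiles level

`M` free over `𝒪[(ℤ/p^m)^r]`, a ring `R` acting on it with elements `u_j` of `p`-power order such
that `u_j - 1 = (g_j - 1) x_j` with bijective `x_j`: modulo `g_j^(p^n) - 1` this is a level at `n`.
-/

set_option autoImplicit false
set_option linter.unusedSectionVars false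

noncomputable section

open IsLocalRing

namespace Fermat.Agent.R59.TWLevel

variable {𝒪 : Type} [CommRing 𝒪] [IsDomain 𝒪] [IsDiscreteValuationRing 𝒪]
  [IsAdicComplete (maximalIdeal 𝒪) 𝒪] [Finite (ResidueField 𝒪)] [IsAddTorsionFree 𝒪]
  {p : ℕ} [hp : Fact p.Prime] {m n r : ℕ}

section Finite

variable {M : Type} [AddCommGroup M] [Module (TWAlg 𝒪 p m r) M] [Module 𝒪 M] [IsScalarTower 𝒪 (TWAlg 𝒪 p m r) M]

set_option maxHeartbeats 1000000 in
/-- Endomorphisms of a finite module and of its quotients form finite algebras. -/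
theorem finite_end_quotient [Module.Finite (TWAlg 𝒪 p m r) M] (I : Ideal (TWAlg 𝒪 p m r)) :
    Module.Finite 𝒪 (Module.End (TWAlg 𝒪 p m r) (M ⧸ I • (⊤ : Submodule (TWAlg 𝒪 p m r) M))) := by
  have : Module.Finite 𝒪 M := Module.Finite.trans (TWAlg 𝒪 p m r) M
  have : Module.Finite 𝒪 (M ⧸ I • (⊤ : Submodule (TWAlg 𝒪 p m r) M)) :=
    Module.Finite.of_surjective ((I • (⊤ : Submodule (TWAlg 𝒪 p m r) M)).mkQ.restrictScalars 𝒪)
      (Submodule.mkQ_surjective _)
  exact TW.Mod.finite_end_restrict (𝒪 := 𝒪) (R := TWAlg 𝒪 p m r)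

end Finite

variable {R : Type} [CommRing R] [Algebra 𝒪 R] {R₀ : Type} [CommRing R₀] [Algebra 𝒪 R₀]
  {M₀ : Type} [AddCommGroup M₀] [Module R₀ M₀] [Module 𝒪 M₀] [IsScalarTower 𝒪 R₀ M₀]
  {M : Type} [AddCommGroup M] [Module (TWAlg 𝒪 p m r) M] [Module 𝒪 M] [IsScalarTower 𝒪 (TWAlg 𝒪 p m r) M]
  [Module.Free (TWAlg 𝒪 p m r) M] [Module.Finite (TWAlg 𝒪 p m r) M]

set_option maxHeartbeats 800000 in
/-- The level at `n`. -/
theorem nonempty_twLevel (hp2 : p ≠ 2) (hpm : (p : 𝒪) ∈ maximalIdeal 𝒪) (hnm : n ≤ m)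
    (γ : MvPowerSeries (Fin r) 𝒪 →ₐ[𝒪] R) (hγ : Function.Surjective γ)
    (res : R →ₐ[𝒪] R₀) (hres : Function.Surjective res)
    (u : Fin r → R) (hu : ∀ j, res (u j) = 1) (v : Fin r → ℕ) (hv : ∀ j, u j ^ p ^ v j = 1)
    (Ψ : R →ₐ[𝒪] Module.End (TWAlg 𝒪 p m r) M) (x : Fin r → Module.End (TWAlg 𝒪 p m r) M)
    (hx : ∀ j, Function.Surjective (x j))
    (hΨ : ∀ j, Ψ (u j) = 1 + algebraMap (TWAlg 𝒪 p m r) _ (twGen 𝒪 p m r j - 1) * x j)
    (π : M →ₗ[𝒪] M₀) (hπs : Function.Surjective π)
    (hπk : ∀ y, π y = 0 ↔ y ∈ RingHom.ker (twAug 𝒪 p m r) • (⊤ : Submodule (TWAlg 𝒪 p m r) M))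
    (hπR : ∀ (a : R) y, π (Ψ a y) = res a • π y) :
    Nonempty (R59.TWLevel (𝒪 := 𝒪) p r R₀ M₀ n) := by
  classical
  have : NeZero p := ⟨hp.out.ne_zero⟩
  set J := levelIdeal 𝒪 p m r n with hJdef
  set X : Fin r → (TWAlg 𝒪 p m r) := fun j => twGen 𝒪 p m r j - 1 with hXdef
  set N : Submodule (TWAlg 𝒪 p m r) M := J • ⊤ with hNdef
  let b := Module.Free.chooseBasis (TWAlg 𝒪 p m r) M
  have := finite_end_quotient (𝒪 := 𝒪) (M := M) J
  let ΨN : R →ₐ[𝒪] Module.End (TWAlg 𝒪 p m r) (M ⧸ N) := ((descend J).restrictScalars 𝒪).comp Ψ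
  have hΨN : ∀ (a : R) (y : M),
      ΨN a (Submodule.Quotient.mk y) = Submodule.Quotient.mk (Ψ a y) := fun _ _ => rfl
  let _ : Module R (M ⧸ N) := Module.compHom (M ⧸ N) ΨN.toRingHom
  have hsmul : ∀ (a : R) (y : M ⧸ N), a • y = ΨN a y := fun _ _ => rfl
  have : IsScalarTower 𝒪 R (M ⧸ N) := IsScalarTower.of_algebraMap_smul fun c y => by
    rw [hsmul, AlgHom.commutes]
    rfl
  -- `u_j ^ (p ^ n)` acts trivially
  have hpow : ∀ j, ΨN (u j ^ p ^ n) = 1 := by
    intro j
    rw [map_pow]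
    refine pow_eq_one_of_gen_pow (Λ := (TWAlg 𝒪 p m r)) hp2 hpm
      (fun a ha => end_quotient_torsionFree b (saturated_levelIdeal hnm) hp.out.ne_zero ha) ?_
      (g := twGen 𝒪 p m r j) (x := descend J (x j)) ?_ (v j) (by rw [← map_pow, hv, map_one])
    · rw [← sub_eq_zero, ← map_one (algebraMap (TWAlg 𝒪 p m r) (Module.End (TWAlg 𝒪 p m r) (M ⧸ N))), ← map_sub]
      exact descend_algebraMap_eq_zero (Ideal.subset_span ⟨j, rfl⟩)
    · show descend J (Ψ (u j)) = _
      rw [hΨ, map_add, map_one, map_mul, AlgHom.commutes]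
  -- the map to `M₀`
  have hJa : J ≤ RingHom.ker (twAug 𝒪 p m r) := by
    rw [ker_twAug]; exact levelIdeal_le_span
  let πN : M ⧸ N →ₗ[𝒪] M₀ :=
    (N.restrictScalars 𝒪).liftQ π (fun y hy => LinearMap.mem_ker.2
        ((hπk y).2 (Submodule.smul_mono hJa le_rfl hy))) ∘ₗ
      (Submodule.Quotient.restrictScalarsEquiv 𝒪 N).symm.toLinearMap
  have hπN : ∀ y, πN (Submodule.Quotient.mk y) = π y := fun y => by
    simp [πN]
  have hπR' : ∀ (a : R) (y : M ⧸ N), πN (a • y) = res a • πN y := by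
    intro a y
    obtain ⟨y, rfl⟩ := Submodule.Quotient.mk_surjective _ y
    rw [hsmul, hΨN, hπN, hπN, hπR]
  let K : Submodule R (M ⧸ N) := Ideal.span (Set.range fun j => u j - 1) • ⊤
  have hu1 : ∀ j (y : M), (u j - 1) • (Submodule.Quotient.mk y : M ⧸ N) =
      Submodule.Quotient.mk (X j • x j y) := fun j y => by
    rw [hsmul, hΨN, map_sub, map_one, hΨ, add_sub_cancel_left]
    rfl
  have hXK : ∀ j (y : M), (Submodule.Quotient.mk (X j • y) : M ⧸ N) ∈ K := by
    intro j y
    obtain ⟨y, rfl⟩ := hx j y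
    rw [← hu1]
    exact Submodule.smul_mem_smul (Ideal.subset_span ⟨j, rfl⟩) Submodule.mem_top
  have haugK : ∀ a ∈ RingHom.ker (twAug 𝒪 p m r), ∀ y : M,
      (Submodule.Quotient.mk (a • y) : M ⧸ N) ∈ K := by
    intro a ha
    rw [ker_twAug] at ha
    induction ha using Submodule.span_induction with
    | mem a ha => obtain ⟨j, rfl⟩ := ha; exact hXK j
    | zero => intro y; rw [zero_smul, Submodule.Quotient.mk_zero]; exact zero_mem _
    | add a a' _ _ h h' =>
      intro y; rw [add_smul, Submodule.Quotient.mk_add]; exact add_mem (h y) (h' y)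
    | smul c a _ h => intro y; rw [smul_eq_mul, mul_comm, mul_smul]; exact h _
  have hker : ∀ y : M ⧸ N, πN y = 0 ↔ y ∈ K := by
    intro y
    constructor
    · obtain ⟨y, rfl⟩ := Submodule.Quotient.mk_surjective _ y
      intro hy
      rw [hπN, hπk] at hy
      refine Submodule.smul_induction_on hy (fun a ha z _ => haugK a ha z) fun z z' hz hz' => ?_
      rw [Submodule.Quotient.mk_add]
      exact add_mem hz hz'
    · intro hy
      refine Submodule.smul_induction_on hy (fun a ha z _ => ?_) (fun z z' hz hz' => ?_)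
      · rw [hπR']
        have : res a = 0 := by
          refine RingHom.mem_ker.1 ((Ideal.span_le (I := RingHom.ker res.toRingHom)).2 ?_ ha)
          rintro _ ⟨j, rfl⟩
          simp [hu]
        rw [this, zero_smul]
      · rw [map_add, hz, hz', add_zero]
  -- the basis
  let ι := Module.Free.ChooseBasisIndex (TWAlg 𝒪 p m r) M
  let σ : Fin (Fintype.card ι) ≃ ι := (Fintype.equivFin ι).symm
  let bb : Fin (Fintype.card ι) → M ⧸ N := fun i => Submodule.Quotient.mk (b (σ i))
  let cmb : (Fin (Fintype.card ι) → (Fin r → Fin (p ^ n)) → 𝒪) →ₗ[𝒪] M ⧸ N :=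
    UnitBasis.combine (T := R) u (fun _ => p ^ n) bb
  have hpn : ∀ j (y : M ⧸ N), u j ^ p ^ n • y = y := fun j y => by rw [hsmul, hpow]; rfl
  have hsurj : Function.Surjective cmb := by
    rw [← LinearMap.range_eq_top]
    set W := LinearMap.range cmb with hW
    have : Module.Finite 𝒪 (M ⧸ N) := by
      have : Module.Finite 𝒪 M := Module.Finite.trans (TWAlg 𝒪 p m r) M
      exact Module.Finite.of_surjective (N.mkQ.restrictScalars 𝒪) N.mkQ_surjective
    refine top_le_iff.1 (Submodule.le_of_le_smul_of_le_jacobson_bot Module.Finite.fg_top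
      (IsLocalRing.maximalIdeal_le_jacobson ⊥) (top_le_iff.2 ?_))
    set P := W ⊔ maximalIdeal 𝒪 • (⊤ : Submodule 𝒪 (M ⧸ N))
    refine UnitBasis.eq_top_of_sum_nilpotent (fun j => u j - 1) (fun _ => p ^ n) (fun j y hy => ?_)
      (fun j y => Submodule.mem_sup_right ?_) Finset.univ fun y => ?_
    · obtain ⟨w, hw, z, hz, rfl⟩ := Submodule.mem_sup.1 hy
      rw [smul_add]
      refine add_mem (Submodule.mem_sup_left ?_) (Submodule.mem_sup_right ?_)
      · rw [sub_smul, one_smul]
        exact sub_mem (UnitBasis.range_combine_stable u (fun _ => p ^ n) bb hpn j hw) hw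
      · refine Submodule.smul_induction_on hz (fun c hc z _ => ?_) (fun z z' hz hz' => ?_)
        · rw [smul_comm]
          exact Submodule.smul_mem_smul hc Submodule.mem_top
        · rw [smul_add]
          exact add_mem hz hz'
    · obtain ⟨t, ht⟩ := exists_add_pow_prime_pow_eq hp.out (u j) (-1) n
      rw [← sub_eq_add_neg, (hp.out.odd_of_ne_two hp2).pow.neg_one_pow] at ht
      rw [ht, add_smul, add_smul, hpn, neg_smul, one_smul, add_neg_cancel, zero_add, mul_assoc,
        mul_assoc, mul_smul, ← map_natCast (algebraMap 𝒪 R), algebraMap_smul]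
      exact Submodule.smul_mem_smul hpm Submodule.mem_top
    · let S : (Fin r → M ⧸ N) →ₗ[𝒪] M ⧸ N :=
        { toFun := fun z => ∑ j, (u j - 1) • z j
          map_add' := fun z z' => by simp [Finset.sum_add_distrib]
          map_smul' := fun c z => by simp [Finset.smul_sum, smul_comm c] }
      suffices y ∈ P ⊔ LinearMap.range S by
        obtain ⟨w, hw, _, ⟨z, rfl⟩, rfl⟩ := Submodule.mem_sup.1 this
        exact ⟨z, by simpa [S] using hw⟩
      have hKS : ∀ z ∈ K, z ∈ LinearMap.range S := by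
        intro z hz
        refine Submodule.smul_induction_on hz (fun a ha z _ => ?_) fun _ _ h h' => add_mem h h'
        induction ha using Submodule.span_induction generalizing z with
        | mem a ha =>
          obtain ⟨j, rfl⟩ := ha
          refine ⟨Pi.single j z, ?_⟩
          show ∑ i, (u i - 1) • (Pi.single j z : Fin r → M ⧸ N) i = _
          rw [Finset.sum_eq_single j (fun i _ hi => by rw [Pi.single_eq_of_ne hi, smul_zero])
            (by simp), Pi.single_eq_same]
        | zero => rw [zero_smul]; exact zero_mem _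
        | add a a' _ _ h h' => rw [add_smul]; exact add_mem (h z trivial) (h' z trivial)
        | smul c a _ h => rw [smul_eq_mul, mul_comm, mul_smul]; exact h _ trivial
      obtain ⟨y, rfl⟩ := Submodule.Quotient.mk_surjective _ y
      rw [← b.sum_repr y, ← Submodule.mkQ_apply, map_sum]
      refine Submodule.sum_mem _ fun i _ => ?_
      rw [Submodule.mkQ_apply, ← sub_add_cancel (b.repr y i)
        (algebraMap 𝒪 (TWAlg 𝒪 p m r) (twAug 𝒪 p m r (b.repr y i))), add_smul, algebraMap_smul,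
        Submodule.Quotient.mk_add]
      refine add_mem (Submodule.mem_sup_right (hKS _ ?_)) (Submodule.mem_sup_left
        (Submodule.mem_sup_left (Submodule.smul_mem W (twAug 𝒪 p m r (b.repr y i))
          (x := (Submodule.Quotient.mk (b i) : M ⧸ N)) ?_)))
      · exact haugK _ (RingHom.mem_ker.2 (by
          rw [map_sub, AlgHom.commutes, Algebra.algebraMap_self, RingHom.id_apply, sub_self])) _
      · refine ⟨Pi.single (σ.symm i) (Pi.single 0 1), ?_⟩
        rw [UnitBasis.combine_single]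
        simp [bb]
  -- the rank
  let f : M →ₗ[𝒪] (ι → TWAlg 𝒪 p n r) :=
    { toFun := fun y i => levelMap hnm (b.repr y i)
      map_add' := fun y y' => by funext i; simp
      map_smul' := fun c y => by
        funext i
        rw [← algebraMap_smul (TWAlg 𝒪 p m r) c y, map_smul, Finsupp.smul_apply, smul_eq_mul, map_mul,
          AlgHom.commutes, ← Algebra.smul_def]
        rfl }
  have hf : Function.Surjective f := fun z => by
    choose a ha using fun i => levelMap_surjective (𝒪 := 𝒪) (p := p) (r := r) hnm (z i)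
    refine ⟨b.repr.symm (Finsupp.equivFunOnFinite.symm a), funext fun i => ?_⟩
    show levelMap hnm _ = _
    rw [LinearEquiv.apply_symm_apply]
    exact ha i
  have hfk : LinearMap.ker f = N.restrictScalars 𝒪 := by
    ext y
    rw [LinearMap.mem_ker, Submodule.restrictScalars_mem, mem_smul_top_iff_repr b, funext_iff]
    exact forall_congr' fun i => (mem_levelIdeal_iff hnm _).symm
  have eG : (Fin r → Fin (p ^ n)) ≃ TWGroup p n r :=
    Equiv.piCongrRight fun _ => Fintype.equivOfCardEq (by simp [ZMod.card])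
  let e : (M ⧸ N) ≃ₗ[𝒪] (Fin (Fintype.card ι) → (Fin r → Fin (p ^ n)) → 𝒪) :=
    ((Submodule.Quotient.restrictScalarsEquiv 𝒪 N).symm ≪≫ₗ
      Submodule.quotEquivOfEq _ _ hfk.symm ≪≫ₗ f.quotKerEquivOfSurjective hf) ≪≫ₗ
      (LinearEquiv.piCongrRight fun _ => (MonoidAlgebra.basis (TWGroup p n r) 𝒪).equivFun ≪≫ₗ
        LinearEquiv.funCongrLeft 𝒪 𝒪 eG) ≪≫ₗ LinearEquiv.funCongrLeft 𝒪 _ σ
  have hbij : Function.Bijective cmb := by
    refine ⟨fun c c' h => ?_, hsurj⟩
    exact OrzechProperty.injective_of_surjective_endomorphism (e.toLinearMap ∘ₗ cmb)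
      (e.surjective.comp hsurj) (congrArg e h)
  refine ⟨{ R := R, γ := γ, γ_surjective := hγ, res := res, res_surjective := hres, u := u
            res_u := hu, M := M ⧸ N, π := πN.toAddMonoidHom, π_smul := hπR'
            π_surjective := fun z => ?_, ker_π := hker
            u_pow_smul := hpn, d := Fintype.card ι, b := bb, basis := ?_ }⟩
  · obtain ⟨y, rfl⟩ := hπs z
    exact ⟨Submodule.Quotient.mk y, hπN y⟩
  · convert hbij using 1
    funext c
    refine Finset.sum_congr rfl fun i _ => Finset.sum_congr rfl fun e _ => ?_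
    rw [← Algebra.smul_def, smul_assoc]

end Fermat.Agent.R59.TWLevel
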